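import Mathlib
import Fermat.Agent.MUL.Lib.RR.RRI
import Fermat.Agent.MUL.Orig.Lib.RR.Basic
import Fermat.Agent.MUL.Lib.RR.OfModularC

section MergeWrap_Lib_GoodRed_Small_GenusZero -- from Lib/GoodRed/Small/GenusZero.lean

/-!
# Cluster B / GoodRed (23): function fields of genus `0` have a coordinate  (helper12)

Generic lemmas (any `IsRRField K F`, language of the Prelude + Lib/RR), used by
`Small/Haupt2.lean` and `Small/Haupt3.lean`:
* `exists_coordinate`  : genus `0`, `P ≠ Q` ⟹ `x` with `div x = P - Q`;
* `IsCoord`            : `x` has a simple pole at `Q` and no other pole;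
* `IsCoord.exists_zero`: for every `a : K`, `x - a` has exactly one zero `P_a`, simple;
* `IsCoord.exists_value`: every place `R ≠ Q` is `P_a` for a unique `a`;
* `eq_algebraMap_of_ord_eq_zero` : a function without zeros and poles is a constant.
-/

set_option autoImplicit false

noncomputable section

open AlgebraicCurve

namespace Fermat.Agent.GoodRedSmall

open Fermat.Agent.RR

variable {K F : Type*} [Field K] [Field F] [Algebra K F]

/-- strict ultrametric: if `ord f < ord g` then `ord (f + g) = ord f`. -/
theorem ord_add_eq_of_lt (v : Place K F) {f g : F} (hf : f ≠ 0) (hg : g ≠ 0)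
    (hlt : v.ord f < v.ord g) : v.ord (f + g) = v.ord f := by
  have hfg : f + g ≠ 0 := by
    intro h
    have : f = -g := eq_neg_of_add_eq_zero_left h
    have h1 : v.ord f = v.ord g := by
      rw [this, show -g = (-1 : F) * g by ring, v.ord_mul (by norm_num) hg]
      have : v.ord (-1 : F) = 0 := by
        have h2 : v.ord ((-1 : F) * (-1)) = v.ord (-1 : F) + v.ord (-1 : F) :=
          v.ord_mul (by norm_num) (by norm_num)
        rw [show ((-1 : F) * (-1)) = 1 by ring, v.ord_one] at h2
        omega
      omega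
    omega
  have hneg1 : v.ord (-1 : F) = 0 := by
    have h2 : v.ord ((-1 : F) * (-1)) = v.ord (-1 : F) + v.ord (-1 : F) :=
      v.ord_mul (by norm_num) (by norm_num)
    rw [show ((-1 : F) * (-1)) = 1 by ring, v.ord_one] at h2
    omega
  have h1 := Fermat.Agent.S24Res.ord_add_ge v hf hg hfg
  have hng : -g ≠ 0 := neg_ne_zero.mpr hg
  have hordng : v.ord (-g) = v.ord g := by
    rw [show -g = (-1 : F) * g by ring, v.ord_mul (by norm_num) hg, hneg1, zero_add]
  have h2 := Fermat.Agent.S24Res.ord_add_ge v hfg hng (by rw [add_neg_cancel_right]; exact hf)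
  rw [add_neg_cancel_right, hordng] at h2
  rw [min_eq_left hlt.le] at h1
  rcases le_total (v.ord (f + g)) (v.ord g) with h3 | h3
  · rw [min_eq_left h3] at h2
    omega
  · rw [min_eq_right h3] at h2
    omega

/-- `ord (-f) = ord f`. -/
theorem ord_neg' (v : Place K F) (f : F) : v.ord (-f) = v.ord f := by
  rcases eq_or_ne f 0 with rfl | hf
  · simp
  have hneg1 : v.ord (-1 : F) = 0 := by
    have h2 : v.ord ((-1 : F) * (-1)) = v.ord (-1 : F) + v.ord (-1 : F) :=
      v.ord_mul (by norm_num) (by norm_num)
    rw [show ((-1 : F) * (-1)) = 1 by ring, v.ord_one] at h2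
    omega
  rw [show -f = (-1 : F) * f by ring, v.ord_mul (by norm_num) hf, hneg1, zero_add]

/-- `ord (f ^ n) = n * ord f`. -/
theorem ord_pow' (v : Place K F) (f : F) (n : ℕ) : v.ord (f ^ n) = n * v.ord f := by
  have := v.ord_zpow f (n : ℤ)
  rwa [zpow_natCast] at this

/-- a nonzero constant has order `0`; here for `algebraMap`. -/
theorem ord_const (v : Place K F) (a : K) : v.ord (algebraMap K F a) = 0 :=
  Fermat.Agent.S24Res.ord_algebraMap v a

/-- if `0 < ord (f - c)` for a constant `c ≠ 0` then `ord f = 0`. -/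
theorem ord_eq_zero_of_sub_pos (v : Place K F) {f : F} {c : K} (hc : c ≠ 0)
    (h : 0 < v.ord (f - algebraMap K F c)) : v.ord f = 0 := by
  have hc' : algebraMap K F c ≠ 0 := by
    rwa [ne_eq, map_eq_zero_iff _ (algebraMap K F).injective]
  have hne : f - algebraMap K F c ≠ 0 := by
    intro h0
    rw [h0, v.ord_zero] at h
    exact lt_irrefl _ h
  have := ord_add_eq_of_lt v hc' hne (by rw [ord_const]; exact h)
  rw [add_sub_cancel, ord_const] at this
  exact this

/-- an effective divisor of degree `1` is a single place. -/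
theorem exists_eq_single_of_degree_eq_one (h : IsRRField K F) {E : Divisor K F} (hE : 0 ≤ E)
    (hdeg : Divisor.degree E = 1) : ∃ P : Place K F, E = Finsupp.single P 1 := by
  classical
  have hne : E ≠ 0 := by
    rintro rfl
    simp at hdeg
  obtain ⟨P, hP⟩ := Finsupp.support_nonempty_iff.mpr hne
  have hP0 : E P ≠ 0 := Finsupp.mem_support_iff.mp hP
  have hP1 : 1 ≤ E P := by
    have := Finsupp.le_def.mp hE P
    simp only [Finsupp.coe_zero, Pi.zero_apply] at this
    omega
  refine ⟨P, ?_⟩
  have hle : Finsupp.single P 1 ≤ E := by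
    rw [Finsupp.le_def]
    intro v
    by_cases hv : v = P
    · subst hv
      simpa using hP1
    · rw [Finsupp.single_apply, if_neg (Ne.symm hv)]
      have := Finsupp.le_def.mp hE v
      simpa using this
  have hd : Divisor.degree (Finsupp.single P (1 : ℤ)) = Divisor.degree E := by
    rw [Divisor.degree_single, h.deg_one, hdeg]
    simp
  exact (eq_of_le_of_degree_eq h hle hd).symm

/-- a function without zeros and poles is a nonzero constant. -/
theorem eq_algebraMap_of_ord_eq_zero (h : IsRRField K F) {f : F} (hf : f ≠ 0)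
    (h0 : ∀ v : Place K F, v.ord f = 0) : ∃ c : K, c ≠ 0 ∧ f = algebraMap K F c := by
  have hmem : f ∈ riemannRochSpace (0 : Divisor K F) := by
    rw [mem_riemannRochSpace_iff]
    intro v
    right
    simp [h0 v]
  obtain ⟨c, hc⟩ := (mem_riemannRochSpace_zero_iff h f).mp hmem
  refine ⟨c, ?_, hc.symm⟩
  rintro rfl
  rw [map_zero] at hc
  exact hf hc.symm

/-- `x` is a coordinate with pole `Q`: a simple pole at `Q` and no other pole. -/
structure IsCoord (x : F) (Q : Place K F) : Prop where
  ord_pole : Q.ord x = -1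
  ord_nonneg : ∀ v : Place K F, v ≠ Q → 0 ≤ v.ord x

/-- genus `0`: there is a function with divisor `P - Q`. -/
theorem exists_coordinate (h : IsRRField K F) (hg : genusFF K F = 0) {P Q : Place K F}
    (hPQ : P ≠ Q) :
    ∃ x : F, IsCoord x Q ∧ P.ord x = 1 ∧ ∀ v : Place K F, v ≠ P → v ≠ Q → v.ord x = 0 := by
  classical
  set D : Divisor K F := Finsupp.single Q 1 - Finsupp.single P 1 with hD
  have hdeg : Divisor.degree D = 0 := by
    rw [hD, map_sub, Divisor.degree_single, Divisor.degree_single, h.deg_one, h.deg_one]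
    simp
  have hRI := riemann_inequality h D
  rw [hdeg, hg] at hRI
  have hell : 1 ≤ ell D := by
    have : (1 : ℤ) ≤ (ell D : ℤ) := by simpa using hRI
    exact_mod_cast this
  have hbot : riemannRochSpace D ≠ ⊥ := by
    intro hb
    rw [ell_def, hb] at hell
    simp at hell
  obtain ⟨x, hxD, hx0⟩ := (Submodule.ne_bot_iff _).mp hbot
  have hdiv := divOf_eq_neg_of_mem_of_degree_eq_zero h hx0 hxD hdeg
  have hord : ∀ v : Place K F, v.ord x = (Finsupp.single P (1 : ℤ)) v - (Finsupp.single Q (1 : ℤ)) v := by
    intro v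
    rw [← divOf_apply h x v, hdiv, hD]
    simp
  refine ⟨x, ⟨?_, ?_⟩, ?_, ?_⟩
  · rw [hord, Finsupp.single_apply, Finsupp.single_apply, if_neg hPQ, if_pos rfl]
    norm_num
  · intro v hv
    rw [hord, Finsupp.single_apply, Finsupp.single_apply, if_neg (Ne.symm hv)]
    split_ifs <;> norm_num
  · rw [hord, Finsupp.single_apply, Finsupp.single_apply, if_pos rfl, if_neg (Ne.symm hPQ)]
    norm_num
  · intro v hvP hvQ
    rw [hord, Finsupp.single_apply, Finsupp.single_apply, if_neg (Ne.symm hvP),
      if_neg (Ne.symm hvQ)]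
    norm_num

namespace IsCoord

variable {x : F} {Q : Place K F}

theorem ne_zero (hx : IsCoord x Q) : x ≠ 0 := by
  rintro rfl
  have := hx.ord_pole
  simp at this

/-- a coordinate is not a constant. -/
theorem ne_algebraMap (hx : IsCoord x Q) (a : K) : x ≠ algebraMap K F a := by
  intro h
  have := hx.ord_pole
  rw [h, ord_const] at this
  omega

theorem sub_ne_zero (hx : IsCoord x Q) (a : K) : x - algebraMap K F a ≠ 0 :=
  _root_.sub_ne_zero.mpr (hx.ne_algebraMap a)

/-- translates of a coordinate are coordinates. -/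
theorem sub_const (hx : IsCoord x Q) (a : K) : IsCoord (x - algebraMap K F a) Q := by
  rcases eq_or_ne a 0 with rfl | ha
  · simpa using hx
  have ha' : algebraMap K F a ≠ 0 := by
    rwa [ne_eq, map_eq_zero_iff _ (algebraMap K F).injective]
  have hna : -algebraMap K F a ≠ 0 := neg_ne_zero.mpr ha'
  have hordna : ∀ v : Place K F, v.ord (-algebraMap K F a) = 0 := fun v => by
    rw [ord_neg', ord_const]
  refine ⟨?_, ?_⟩
  · rw [sub_eq_add_neg, ord_add_eq_of_lt Q hx.ne_zero hna (by rw [hordna, hx.ord_pole]; norm_num)]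
    exact hx.ord_pole
  · intro v hv
    have h1 := Fermat.Agent.S24Res.ord_add_ge v hx.ne_zero hna
      (by rw [← sub_eq_add_neg]; exact hx.sub_ne_zero a)
    rw [hordna, ← sub_eq_add_neg] at h1
    have h2 := hx.ord_nonneg v hv
    rcases le_total (v.ord x) 0 with h3 | h3
    · rw [min_eq_left h3] at h1
      omega
    · rw [min_eq_right h3] at h1
      exact h1

/-- a coordinate has exactly one zero, and it is simple. -/
theorem exists_zero (h : IsRRField K F) (hx : IsCoord x Q) :
    ∃ P : Place K F, P ≠ Q ∧ P.ord x = 1 ∧ ∀ v : Place K F, v ≠ P → v ≠ Q → v.ord x = 0 := by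
  classical
  set E : Divisor K F := divOf h x + Finsupp.single Q 1 with hE
  have hE0 : 0 ≤ E := by
    rw [Finsupp.le_def]
    intro v
    rw [hE, Finsupp.add_apply, divOf_apply, Finsupp.single_apply]
    by_cases hv : v = Q
    · subst hv
      rw [if_pos rfl, hx.ord_pole]
      simp
    · rw [if_neg (Ne.symm hv)]
      simpa using hx.ord_nonneg v hv
  have hdeg : Divisor.degree E = 1 := by
    rw [hE, map_add, degree_divOf, Divisor.degree_single, h.deg_one]
    simp
  obtain ⟨P, hP⟩ := exists_eq_single_of_degree_eq_one h hE0 hdeg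
  have hord : ∀ v : Place K F, v.ord x = (Finsupp.single P (1 : ℤ)) v - (Finsupp.single Q (1 : ℤ)) v := by
    intro v
    have := congrArg (fun D : Divisor K F => D v) hP
    simp only [hE, Finsupp.add_apply, divOf_apply] at this
    omega
  have hPQ : P ≠ Q := by
    rintro rfl
    have := hord P
    rw [hx.ord_pole, Finsupp.single_apply, if_pos rfl] at this
    omega
  refine ⟨P, hPQ, ?_, ?_⟩
  · rw [hord, Finsupp.single_apply, Finsupp.single_apply, if_pos rfl, if_neg (Ne.symm hPQ)]
    norm_num
  · intro v hvP hvQ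
    rw [hord, Finsupp.single_apply, Finsupp.single_apply, if_neg (Ne.symm hvP),
      if_neg (Ne.symm hvQ)]
    norm_num

/-- the zeros of `x - a`: if `0 < ord_R (x - a)` then `ord_R (x - a) = 1`, and `R` is the only
zero of `x - a`. -/
theorem ord_sub_eq_one (h : IsRRField K F) (hx : IsCoord x Q) {R : Place K F} {a : K}
    (hR : 0 < R.ord (x - algebraMap K F a)) :
    R.ord (x - algebraMap K F a) = 1 ∧
      ∀ v : Place K F, 0 < v.ord (x - algebraMap K F a) → v = R := by
  obtain ⟨P, hPQ, hP1, hP0⟩ := (hx.sub_const a).exists_zero h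
  have hRQ : R ≠ Q := by
    rintro rfl
    rw [(hx.sub_const a).ord_pole] at hR
    omega
  have hRP : R = P := by
    by_contra hne
    rw [hP0 R hne hRQ] at hR
    exact lt_irrefl _ hR
  subst hRP
  refine ⟨hP1, fun v hv => ?_⟩
  by_contra hne
  have hvQ : v ≠ Q := by
    rintro rfl
    rw [(hx.sub_const a).ord_pole] at hv
    omega
  rw [hP0 v hne hvQ] at hv
  exact lt_irrefl _ hv

/-- every place other than the pole has a value. -/
theorem exists_value (h : IsRRField K F) (hx : IsCoord x Q) {R : Place K F} (hR : R ≠ Q) :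
    ∃ a : K, R.ord (x - algebraMap K F a) = 1 := by
  obtain ⟨a, ha | ha⟩ := exists_const_sub h R (hx.ord_nonneg R hR)
  · exact absurd ha (hx.ne_algebraMap a)
  · exact ⟨a, (hx.ord_sub_eq_one h ha).1⟩

/-- the order of `x - b` at the place with value `a ≠ b` is `0`. -/
theorem ord_sub_eq_zero (h : IsRRField K F) (hx : IsCoord x Q) {R : Place K F} {a b : K}
    (hR : R.ord (x - algebraMap K F a) = 1) (hab : a ≠ b) :
    R.ord (x - algebraMap K F b) = 0 := by
  have hRQ : R ≠ Q := by
    rintro rfl
    rw [(hx.sub_const a).ord_pole] at hR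
    omega
  have h0 : 0 ≤ R.ord (x - algebraMap K F b) := (hx.sub_const b).ord_nonneg R hRQ
  rcases h0.lt_or_eq with hpos | heq
  · exfalso
    -- both `x - a` and `x - b` vanish at `R`: their difference `b - a` is a nonzero constant
    have hc : (a - b) ≠ 0 := _root_.sub_ne_zero.mpr hab
    have hsub : x - algebraMap K F b - algebraMap K F (a - b) = x - algebraMap K F a := by
      rw [map_sub]; ring
    have := ord_eq_zero_of_sub_pos R hc (f := x - algebraMap K F b)
      (by rw [hsub, hR]; norm_num)
    omega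
  · exact heq.symm

/-- values separate places. -/
theorem value_injective (h : IsRRField K F) (hx : IsCoord x Q) {R R' : Place K F} {a : K}
    (hR : R.ord (x - algebraMap K F a) = 1) (hR' : R'.ord (x - algebraMap K F a) = 1) :
    R = R' :=
  ((hx.ord_sub_eq_one h (R := R') (by rw [hR']; norm_num)).2 R (by rw [hR]; norm_num))

end IsCoord

end Fermat.Agent.GoodRedSmall
end
end MergeWrap_Lib_GoodRed_Small_GenusZero
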